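/-
Project BAD, layer L-MOD, block PRE, node PRE-1: the closed points of the special fibre of a chart of
a `PreModel` are points in the sense of `IsPt`; the `q`-expansion principle for powers of `q`.
-/
import Mathlib
import Fermat.Agent.S18.Defs
import Fermat.Agent.S36.BP.Defs
import Fermat.Agent.S36.BP.Loc
import Fermat.Agent.S36.BP.LocQep
import Fermat.Agent.BAD.Model.Defs

set_option autoImplicit false
set_option linter.style.haveILetI false

noncomputable section

namespace Fermat.Agent.BAD.Model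

open Fermat.Agent.S18 Fermat.Agent.S36.BP IntermediateField Polynomial

variable {K₀ F : Type*} [Field K₀] [Field F] [Algebra K₀ F]
variable {A₀ : ValuationSubring K₀} {q : ℕ} {x : F} {V : Fin 3 → ValuationSubring F} {ϖm : F}

theorem PreModel.chart_le (P : PreModel A₀ q x V ϖm) (c : Fin 3) :
    ∀ b ∈ chart A₀.toSubring x, b ∈ V c :=
  LocQep.chart_le_of (P.const_mem c) (((V c).valuation_le_one_iff x).mp (P.x_unit c).le)

theorem PreModel.isPt (P : PreModel A₀ q x V ϖm) (𝔫 : Ideal (chart A₀.toSubring x))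
    [𝔫.IsMaximal] (h𝔫 : (q : chart A₀.toSubring x) ∈ 𝔫) :
    IsPt A₀ (locSub (chart A₀.toSubring x) 𝔫) := by
  haveI := P.base.charZero
  have h₀ := P.base.unif
  have hq : constToChart A₀ x ⟨(q : K₀), h₀.mem⟩ ∈ 𝔫 := by
    have : constToChart A₀ x ⟨(q : K₀), h₀.mem⟩ = (q : chart A₀.toSubring x) := by
      apply Subtype.ext
      rw [coe_constToChart]
      simp
    rw [this]
    exact h𝔫
  have hconst_rad : ∀ a : K₀, A₀.valuation a < 1 →
      algebraMap K₀ F a ∈ rad (locSub (chart A₀.toSubring x) 𝔫) := by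
    intro a ha
    obtain ⟨a', ha', e⟩ := exists_eq_unif_mul h₀ ha
    have h1 : constToChart A₀ x ⟨(q : K₀), h₀.mem⟩ * constToChart A₀ x ⟨a', ha'⟩ ∈ 𝔫 :=
      𝔫.mul_mem_right _ hq
    have h2 := coe_mem_rad_locSub h1
    have h3 : ((constToChart A₀ x ⟨(q : K₀), h₀.mem⟩ * constToChart A₀ x ⟨a', ha'⟩ :
        chart A₀.toSubring x) : F) = algebraMap K₀ F a := by
      push_cast
      rw [coe_constToChart, coe_constToChart, e, map_mul]
    rwa [h3] at h2
  have hres := exists_const_sub_mem h₀ P.base.algClosed P.transc P.finite 𝔫 hq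
  refine ⟨fun a ha b hb => add_mem_rad_locSub ha hb, ?_, hconst_rad, ?_, ?_, ?_⟩
  · intro a ha
    exact le_locSub (constToChart A₀ x ⟨a, ha⟩).2
  · rintro r ⟨b, s, hs, e⟩
    obtain ⟨β, hβ⟩ := hres b
    obtain ⟨σ, hσ⟩ := hres s
    have hs0 := coe_ne_zero_of_notMem hs
    -- `σ` is a unit of `A₀`
    have hσn : constToChart A₀ x σ ∉ 𝔫 := by
      intro h
      apply hs
      have := 𝔫.add_mem hσ h
      simpa using this
    have hσ0 : (σ : K₀) ≠ 0 := by
      intro h
      apply hσn
      have : σ = 0 := Subtype.ext h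
      rw [this, map_zero]
      exact 𝔫.zero_mem
    have hσu : ¬ A₀.valuation (σ : K₀) < 1 := by
      intro hlt
      obtain ⟨a', ha', e'⟩ := exists_eq_unif_mul h₀ hlt
      apply hσn
      have : σ = ⟨(q : K₀), h₀.mem⟩ * ⟨a', ha'⟩ := Subtype.ext e'
      rw [this, map_mul]
      exact 𝔫.mul_mem_right _ hq
    have hσinv : (σ : K₀)⁻¹ ∈ A₀ := by
      rw [← A₀.valuation_le_one_iff, map_inv₀]
      have h1 : A₀.valuation (σ : K₀) = 1 :=
        le_antisymm ((A₀.valuation_le_one_iff _).mpr σ.2) (not_lt.mp hσu)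
      rw [h1, inv_one]
    refine ⟨(β : K₀) * (σ : K₀)⁻¹, A₀.mul_mem _ _ β.2 hσinv, ?_⟩
    rw [mem_rad_locSub_iff]
    refine ⟨(b - constToChart A₀ x β) * constToChart A₀ x σ -
        constToChart A₀ x β * (s - constToChart A₀ x σ), s * constToChart A₀ x σ,
      𝔫.sub_mem (𝔫.mul_mem_right _ hβ) (𝔫.mul_mem_left _ hσ),
      fun h => (Ideal.IsPrime.mem_or_mem inferInstance h).elim hs hσn, ?_⟩
    have hσF : algebraMap K₀ F (σ : K₀) ≠ 0 := (_root_.map_ne_zero _).mpr hσ0
    have key : (r - algebraMap K₀ F ((β : K₀) * (σ : K₀)⁻¹)) *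
        ((s : F) * algebraMap K₀ F (σ : K₀)) =
        ((b : F) - algebraMap K₀ F (β : K₀)) * algebraMap K₀ F (σ : K₀) -
          algebraMap K₀ F (β : K₀) * ((s : F) - algebraMap K₀ F (σ : K₀)) := by
      rw [← e, map_mul, map_inv₀]
      field_simp
      ring
    exact key
  · exact mem_locSub_of_isIntegral (fun y hy => mem_chart_of_isIntegral_chart _ _ _ hy)
  · haveI := isNoetherianRing_chart h₀ P.transc P.finite
    exact isNoetherianRing_locSub


theorem PreModel.qep_pow (P : PreModel A₀ q x V ϖm) (k : ℕ) (y : F)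
    (h : (q : F) ^ k * y ∈ chart A₀.toSubring x) (hV : ∀ c, y ∈ V c) :
    y ∈ chart A₀.toSubring x := by
  induction k with
  | zero => simpa using h
  | succ k ih =>
    apply ih
    apply P.qep₁
    · rw [← mul_assoc, ← pow_succ']
      exact h
    · intro c
      exact (V c).mul_mem _ _ ((V c).pow_mem (natCast_mem (V c) q) k) (hV c)

end Fermat.Agent.BAD.Model
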