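/-
Project BAD, layer L-MOD, block PRE, node PRE-5: a closed point of the special fibre of the chart of
`x⁻¹` at which `x⁻¹` does not vanish is a closed point of the special fibre of the chart of `x`.
-/
import Mathlib
import Fermat.Agent.S18.Defs
import Fermat.Agent.S18.Chart.Const
import Fermat.Agent.S18.Chart.Overlap
import Fermat.Agent.S36.BP.Defs
import Fermat.Agent.S36.BP.Rad
import Fermat.Agent.S36.BP.Loc.Basic
import Fermat.Agent.BAD.Model.Defs
import Fermat.Agent.BAD.Model.Pre.Inv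
import Fermat.Agent.BAD.Model.Pre.IsPt

set_option autoImplicit false
set_option linter.style.haveILetI false

noncomputable section

namespace Fermat.Agent.BAD.Model

open Fermat.Agent.S18 Fermat.Agent.S36.BP IntermediateField Polynomial

variable {K₀ F : Type*} [Field K₀] [Field F] [Algebra K₀ F]
variable {A₀ : ValuationSubring K₀} {q : ℕ} {x : F} {V : Fin 3 → ValuationSubring F} {ϖm : F}

/-- A point containing `x` contains the chart of `x`. -/
theorem chart_le_of_isPt {R : Subring F} (hR : IsPt A₀ R) (hx : x ∈ R) :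
    ∀ b ∈ chart A₀.toSubring x, b ∈ R := by
  intro b hb
  rw [mem_chart_iff_isIntegral] at hb
  have hp : ∀ r : polyRing A₀.toSubring x, (r : F) ∈ R := by
    rintro ⟨r, hr⟩
    rw [mem_polyRing_iff] at hr
    obtain ⟨p, hp, rfl⟩ := hr
    change Polynomial.aeval x p ∈ R
    rw [Polynomial.aeval_eq_sum_range]
    refine R.sum_mem fun i _ => ?_
    rw [Algebra.smul_def]
    exact R.mul_mem (hR.const_mem _ (hp i)) (R.pow_mem hx i)
  exact hR.intClosed b (isIntegral_of_forall_exists_algebraMap (fun r => ⟨⟨_, hp r⟩, rfl⟩) hb)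

/-- The trace on the subring `B ⊆ R` of the maximal ideal of the point `R`. -/
def radIdeal {R : Subring F} (hR : IsPt A₀ R) (B : Subring F) (hB : ∀ b ∈ B, b ∈ R) : Ideal B where
  carrier := {b | (b : F) ∈ rad R}
  add_mem' := fun ha hb => hR.add_rad _ ha _ hb
  zero_mem' := zero_mem_rad R
  smul_mem' := fun c _ hb => mul_mem_rad (hB _ c.2) hb

theorem mem_radIdeal {R : Subring F} (hR : IsPt A₀ R) (B : Subring F) (hB : ∀ b ∈ B, b ∈ R)
    (b : B) : b ∈ radIdeal hR B hB ↔ (b : F) ∈ rad R := Iff.rfl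

/-- If `B` contains the constants, the trace of the maximal ideal of `R` is maximal. -/
theorem radIdeal_isMaximal {R : Subring F} (hR : IsPt A₀ R) (B : Subring F)
    (hB : ∀ b ∈ B, b ∈ R) (hc : ∀ a ∈ A₀, algebraMap K₀ F a ∈ B) :
    (radIdeal hR B hB).IsMaximal := by
  rw [Ideal.isMaximal_iff]
  refine ⟨fun h => ?_, fun J b hJ hb hbJ => ?_⟩
  · rw [mem_radIdeal] at h
    exact h.2 (RUnit.one R)
  · rw [mem_radIdeal] at hb
    obtain ⟨a, ha, hab⟩ := hR.res (b : F) (hB _ b.2)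
    have hau : A₀.valuation a = 1 := by
      rcases lt_or_eq_of_le ((A₀.valuation_le_one_iff a).mpr ha) with hlt | heq
      · exfalso
        apply hb
        have h1 := hR.add_rad _ hab _ (hR.const_rad a hlt)
        rwa [sub_add_cancel] at h1
      · exact heq
    obtain ⟨ha0, -, hainv⟩ := val_eq_one_iff.1 hau
    have haF : algebraMap K₀ F a ≠ 0 := (_root_.map_ne_zero _).mpr ha0
    set c : B := ⟨algebraMap K₀ F a⁻¹, hc _ hainv⟩ with hcdef
    have h1 : b * c - 1 ∈ radIdeal hR B hB := by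
      rw [mem_radIdeal]
      have hcF : (c : F) = (algebraMap K₀ F a)⁻¹ := by
        rw [hcdef, ← map_inv₀]
      have h2 : ((b * c - 1 : B) : F) = algebraMap K₀ F a⁻¹ * ((b : F) - algebraMap K₀ F a) := by
        have h0 : ((b * c - 1 : B) : F) = (b : F) * (c : F) - 1 := rfl
        rw [h0, hcF, map_inv₀]
        field_simp
      rw [h2]
      exact mul_mem_rad (hR.const_mem _ hainv) hab
    have h3 : b * c - (b * c - 1) ∈ J := J.sub_mem (J.mul_mem_right _ hbJ) (hJ h1)
    simpa using h3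

/-- A point `R` containing `x`, all of whose elements are fractions of elements of the chart of `x`
with denominators units of `R`, is a closed point of the special fibre of the chart of `x`. -/
theorem exists_point_of_isPt {R : Subring F} (hbase : BaseHyp A₀ q) (hR : IsPt A₀ R) (hx : x ∈ R)
    (hfrac : ∀ y ∈ R, ∃ a s : chart A₀.toSubring x, RUnit R (s : F) ∧ y * (s : F) = (a : F)) :
    ∃ (𝔪 : Ideal (chart A₀.toSubring x)) (h𝔪 : 𝔪.IsMaximal), (q : chart A₀.toSubring x) ∈ 𝔪 ∧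
      (haveI := h𝔪; locSub (chart A₀.toSubring x) 𝔪) = R := by
  have hB := chart_le_of_isPt hR hx
  have hc : ∀ a ∈ A₀, algebraMap K₀ F a ∈ chart A₀.toSubring x := fun a ha =>
    polyRing_le_chart _ _ (Overlap.algebraMap_mem_polyRing A₀.toSubring x ha)
  have hmax := radIdeal_isMaximal hR _ hB hc
  refine ⟨radIdeal hR _ hB, hmax, ?_, ?_⟩
  · rw [mem_radIdeal]
    have hq : A₀.valuation (q : K₀) < 1 := by
      rcases lt_or_eq_of_le ((A₀.valuation_le_one_iff _).mpr hbase.unif.mem) with hlt | heq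
      · exact hlt
      · exact absurd (val_eq_one_iff.1 heq).2.2 hbase.unif.inv_notMem
    have h1 := hR.const_rad _ hq
    rw [map_natCast] at h1
    simpa using h1
  · haveI := hmax
    apply le_antisymm
    · rintro y ⟨a, s, hs, e⟩
      rw [mem_radIdeal] at hs
      have hsu : RUnit R (s : F) := (runit_or_mem_rad (hB _ s.2)).resolve_right hs
      have : y = (a : F) * (s : F)⁻¹ := by
        rw [← e, mul_assoc, mul_inv_cancel₀ hsu.ne_zero, mul_one]
      rw [this]
      exact R.mul_mem (hB _ a.2) hsu.inv_mem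
    · intro y hy
      obtain ⟨a, s, hs, e⟩ := hfrac y hy
      exact ⟨a, s, fun h => ((mem_radIdeal hR _ hB s).1 h).2 hs, e⟩

theorem PreModel.exists_point_of_inv_notMem (P : PreModel A₀ q x V ϖm)
    (𝔫 : Ideal (chart A₀.toSubring x⁻¹)) [𝔫.IsMaximal] (h𝔫 : (q : chart A₀.toSubring x⁻¹) ∈ 𝔫)
    (hx : (⟨x⁻¹, self_mem_chart _⟩ : chart A₀.toSubring x⁻¹) ∉ 𝔫) :
    ∃ (𝔪 : Ideal (chart A₀.toSubring x)) (h𝔪 : 𝔪.IsMaximal), (q : chart A₀.toSubring x) ∈ 𝔪 ∧
      (haveI := h𝔪; locSub (chart A₀.toSubring x) 𝔪) = locSub (chart A₀.toSubring x⁻¹) 𝔫 := by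
  have hR : IsPt A₀ (locSub (chart A₀.toSubring x⁻¹) 𝔫) := P.inv.isPt 𝔫 h𝔫
  have hx0 : x ≠ 0 := by
    intro h
    have := P.x_unit 0
    rw [h, map_zero] at this
    exact zero_ne_one this
  have hxi0 : x⁻¹ ≠ 0 := inv_ne_zero hx0
  have hxR : x ∈ locSub (chart A₀.toSubring x⁻¹) 𝔫 := by
    have := inv_mem_locSub hx
    rwa [inv_inv] at this
  have hxu : RUnit (locSub (chart A₀.toSubring x⁻¹) 𝔫) x :=
    ⟨hx0, hxR, le_locSub (self_mem_chart _)⟩
  refine exists_point_of_isPt P.base hR hxR ?_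
  rintro y ⟨a, s, hs, e⟩
  obtain ⟨N₁, h1⟩ := chart_overlap A₀.toSubring hxi0 (a : F) a.2
  obtain ⟨N₂, h2⟩ := chart_overlap A₀.toSubring hxi0 (s : F) s.2
  rw [inv_inv] at h1 h2
  have hxB : x ∈ chart A₀.toSubring x := self_mem_chart _
  have h1' : x ^ (N₁ + N₂) * (a : F) ∈ chart A₀.toSubring x := by
    have : x ^ (N₁ + N₂) * (a : F) = x ^ N₂ * (x ^ N₁ * (a : F)) := by ring
    rw [this]
    exact Subring.mul_mem _ (Subring.pow_mem _ hxB _) h1
  have h2' : x ^ (N₁ + N₂) * (s : F) ∈ chart A₀.toSubring x := by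
    have : x ^ (N₁ + N₂) * (s : F) = x ^ N₁ * (x ^ N₂ * (s : F)) := by ring
    rw [this]
    exact Subring.mul_mem _ (Subring.pow_mem _ hxB _) h2
  have hsu : RUnit (locSub (chart A₀.toSubring x⁻¹) 𝔫) (s : F) :=
    ⟨coe_ne_zero_of_notMem hs, le_locSub s.2, inv_mem_locSub hs⟩
  refine ⟨⟨_, h1'⟩, ⟨_, h2'⟩, (hxu.pow _).mul hsu, ?_⟩
  change y * (x ^ (N₁ + N₂) * (s : F)) = x ^ (N₁ + N₂) * (a : F)
  rw [← e]
  ring

end Fermat.Agent.BAD.Model
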