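/-
Project BAD, layer L-MOD, block PRE, node PRE-2 (task 1611, helper181):
every `y : F` becomes integral over `A₀[x]` after multiplication by a primitive polynomial `d(x)`
and a power of `q`.
-/
import Mathlib
import Fermat.Agent.S18.Defs
import Fermat.Agent.S18.Chart.Overlap
import Fermat.Agent.S18.Chart.Basic
import Fermat.Agent.S18.Chart.DedFrac
import Fermat.Agent.S36.BP.Defs
import Fermat.Agent.BAD.Model.Defs

set_option autoImplicit false

noncomputable section

namespace Fermat.Agent.BAD.Model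

open Fermat.Agent.S18 Fermat.Agent.S36.BP IntermediateField Polynomial

variable {K₀ F : Type*} [Field K₀] [Field F] [Algebra K₀ F]
variable {A₀ : ValuationSubring K₀} {q : ℕ} {x : F} {V : Fin 3 → ValuationSubring F} {ϖm : F}

/-- If `S = R[1/ϖ]` elementwise, an element integral over `S` becomes integral over `R` after
multiplication by a power of `ϖ`. -/
theorem exists_pow_mul_isIntegral_of_subring (R S : Subring F) (ϖ : F) (hϖ : ϖ ∈ R)
    (h : ∀ s ∈ S, ∃ n : ℕ, ϖ ^ n * s ∈ R) {z : F} (hz : IsIntegral S z) :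
    ∃ k : ℕ, IsIntegral R (ϖ ^ k * z) := by
  obtain ⟨p, hp, hpz⟩ := hz
  choose n hn using fun s : S => h s.1 s.2
  set k : ℕ := (Finset.range (p.natDegree + 1)).sup fun i => n (p.coeff i) with hk
  have hkmem : ∀ i, ϖ ^ k * (p.coeff i : F) ∈ R := by
    intro i
    by_cases hi : i ∈ Finset.range (p.natDegree + 1)
    · obtain ⟨j, hj⟩ := Nat.exists_eq_add_of_le
        (Finset.le_sup (f := fun i => n (p.coeff i)) hi)
      rw [← hk] at hj
      rw [hj, pow_add, mul_comm (ϖ ^ _), mul_assoc]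
      exact R.mul_mem (R.pow_mem hϖ j) (hn _)
    · have : p.coeff i = 0 := by
        apply coeff_eq_zero_of_natDegree_lt
        simp only [Finset.mem_range, not_lt] at hi
        omega
      rw [this]
      simp
  refine ⟨k, ?_⟩
  set P : F[X] := p.map (algebraMap S F) with hP
  have hPm : P.Monic := hp.map _
  have hPd : P.natDegree = p.natDegree := hp.natDegree_map _
  have hl : P.scaleRoots (ϖ ^ k) ∈ Polynomial.lifts (algebraMap R F) := by
    rw [Polynomial.lifts_iff_coeff_lifts]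
    intro i
    rw [coeff_scaleRoots]
    rcases lt_trichotomy i P.natDegree with hi | hi | hi
    · obtain ⟨j, hj⟩ : ∃ j, P.natDegree - i = j + 1 := ⟨P.natDegree - i - 1, by omega⟩
      have hmem : P.coeff i * (ϖ ^ k) ^ (P.natDegree - i) ∈ R := by
        rw [hj, pow_succ, mul_comm ((ϖ ^ k) ^ j), ← mul_assoc, mul_comm (P.coeff i), hP, coeff_map]
        exact R.mul_mem (hkmem i) (R.pow_mem (R.pow_mem hϖ k) j)
      exact ⟨⟨_, hmem⟩, rfl⟩
    · refine ⟨1, ?_⟩
      rw [hi, Nat.sub_self, pow_zero, mul_one, map_one]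
      exact hPm.coeff_natDegree.symm
    · refine ⟨0, ?_⟩
      rw [coeff_eq_zero_of_natDegree_lt hi, zero_mul, map_zero]
  obtain ⟨Q, hQ, -, hQm⟩ := Polynomial.lifts_and_natDegree_eq_and_monic hl
    ((monic_scaleRoots_iff _).mpr hPm)
  refine ⟨Q, hQm, ?_⟩
  rw [← eval_map, hQ, scaleRoots_eval_mul, hP, eval_map, hpz, mul_zero]

/-- an element of the generic chart lies in the integral chart after multiplication by a power of
the uniformiser. -/
theorem exists_pow_mul_mem_chart {ϖ₀ : K₀} (h₀ : IsUnif A₀ ϖ₀) {z : F}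
    (hz : z ∈ chart (⊤ : Subring K₀) x) :
    ∃ k : ℕ, algebraMap K₀ F ϖ₀ ^ k * z ∈ chart A₀.toSubring x := by
  rw [mem_chart_iff_isIntegral] at hz
  refine exists_pow_mul_isIntegral_of_subring (polyRing A₀.toSubring x) (polyRing ⊤ x)
    (algebraMap K₀ F ϖ₀) ?_ (exists_pow_mul_mem_polyRing h₀) hz
  refine (mem_polyRing_iff _ x _).mpr ⟨C ϖ₀, fun i => ?_, aeval_C x ϖ₀⟩
  rw [coeff_C]
  split_ifs
  · exact h₀.mem
  · exact A₀.zero_mem

theorem PreModel.exists_denominator (P : PreModel A₀ q x V ϖm) (y : F) :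
    ∃ d ∈ polyRing A₀.toSubring x, (∀ c, (V c).valuation d = 1) ∧
      ∃ k : ℕ, (q : F) ^ k * (d * y) ∈ chart A₀.toSubring x := by
  have h₀ : IsUnif A₀ (q : K₀) := P.base.unif
  have hq0 : (q : K₀) ≠ 0 := h₀.ne_zero
  obtain ⟨p, hp0, hp⟩ := ChartBasic.exists_mul_mem_chart_top P.finite rfl y
  have hp' : p ≠ 0 := by
    rintro rfl
    exact hp0 (map_zero _)
  obtain ⟨n, p₁, hpp, h1, i₀, hi₀, hi₀'⟩ := IsCoord.exists_primitive h₀ p hp'
  refine ⟨aeval x p₁, (mem_polyRing_iff _ x _).mpr ⟨p₁, h1, rfl⟩, fun c => ?_, ?_⟩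
  · apply le_antisymm
    · rw [ValuationSubring.valuation_le_one_iff, aeval_eq_sum_range]
      refine sum_mem fun i _ => ?_
      rw [Algebra.smul_def]
      have hx : x ∈ V c := (ValuationSubring.valuation_le_one_iff _ _).mp (P.x_unit c).le
      exact (V c).mul_mem _ _ (P.const_mem c _ (h1 i)) ((V c).pow_mem hx i)
    · rw [← not_lt]
      intro hlt
      have h2 := P.gauss c p₁ h1 hlt i₀
      have h3 : A₀.valuation (p₁.coeff i₀)⁻¹ ≤ 1 :=
        (ValuationSubring.valuation_le_one_iff _ _).mpr hi₀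
      have h4 : A₀.valuation (p₁.coeff i₀ * (p₁.coeff i₀)⁻¹) < 1 := by
        rw [map_mul]
        exact mul_lt_one_of_lt_of_le h2 h3
      rw [mul_inv_cancel₀ hi₀', map_one] at h4
      exact lt_irrefl _ h4
  · have hz : aeval x p₁ * y ∈ chart (⊤ : Subring K₀) x := by
      have h5 : aeval x p₁ * y = algebraMap K₀ F (((q : K₀) ^ n)⁻¹) * (aeval x p * y) := by
        rw [hpp, map_mul, aeval_C, ← mul_assoc, ← mul_assoc, ← map_mul,
          inv_mul_cancel₀ (zpow_ne_zero _ hq0), map_one, one_mul]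
      rw [h5]
      exact Subring.mul_mem _ (ChartBasic.const_mem_chart_top _) hp
    obtain ⟨k, hk⟩ := exists_pow_mul_mem_chart h₀ hz
    refine ⟨k, ?_⟩
    rwa [map_natCast] at hk

end Fermat.Agent.BAD.Model
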