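/-
Project BAD, layer L-MOD, block PRE, node PRE-0: the two charts of a `PreModel` play symmetric roles.
-/
import Mathlib
import Fermat.Agent.S18.Defs
import Fermat.Agent.S18.Chart.Const
import Fermat.Agent.S36.BP.Defs
import Fermat.Agent.BAD.Model.Defs

set_option autoImplicit false

noncomputable section

namespace Fermat.Agent.BAD.Model

open Fermat.Agent.S18 Fermat.Agent.S36.BP IntermediateField Polynomial

variable {K₀ F : Type*} [Field K₀] [Field F] [Algebra K₀ F]
variable {A₀ : ValuationSubring K₀} {q : ℕ} {x : F} {V : Fin 3 → ValuationSubring F} {ϖm : F}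

/-- `p(x⁻¹) = p.reverse(x) * x⁻¹ ^ deg p`. -/
theorem aeval_reverse_mul_inv_pow {x : F} (hx : x ≠ 0) (p : K₀[X]) :
    aeval x p.reverse * x⁻¹ ^ p.natDegree = aeval x⁻¹ p := by
  have : Invertible x⁻¹ := invertibleOfNonzero (inv_ne_zero hx)
  have h := eval₂_reverse_mul_pow (algebraMap K₀ F) x⁻¹ p
  rw [invOf_eq_inv, inv_inv] at h
  exact h

theorem PreModel.inv (P : PreModel A₀ q x V ϖm) : PreModel A₀ q x⁻¹ V ϖm where
  base := P.base
  transc := transcendental_inv P.transc
  finite := by
    rw [adjoin_simple_inv_eq]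
    exact P.finite
  const_mem := P.const_mem
  x_unit c := by rw [map_inv₀, P.x_unit, inv_one]
  gauss c p hp hval i := by
    have hx : x ≠ 0 := by
      intro h
      have := P.x_unit c
      rw [h, map_zero] at this
      exact zero_ne_one this
    rw [← aeval_reverse_mul_inv_pow hx p, map_mul, map_pow, map_inv₀, P.x_unit, inv_one, one_pow,
      mul_one] at hval
    have h1 := P.gauss c p.reverse (fun j => by rw [coeff_reverse]; exact hp _) hval
      (revAt p.natDegree i)
    rwa [coeff_reverse, revAt_invol] at h1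
  inj := P.inj
  unif0 := P.unif0
  unif1 := P.unif1
  unif2 := P.unif2
  ram1 := P.ram1
  qep₁ := P.qep₂
  qep₂ := by
    rw [inv_inv]
    exact P.qep₁

end Fermat.Agent.BAD.Model
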