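/-
Project BAD, layer L-MOD, block PRE, node PRE-3 (sub-architect helper38; proofs helper31):
the component `V c` is the localisation of the chart at the prime of the component.
-/
import Mathlib
import Fermat.Agent.S18.Defs
import Fermat.Agent.S18.Chart.Const
import Fermat.Agent.S36.BP.Defs
import Fermat.Agent.S36.BP.Approx
import Fermat.Agent.S36.BP.LocQep
import Fermat.Agent.BAD.Model.Defs
import Fermat.Agent.BAD.Model.Pre.IsPt
import Fermat.Agent.BAD.Model.Pre.Denominator

set_option autoImplicit false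

noncomputable section

namespace Fermat.Agent.BAD.Model

open Fermat.Agent.S18 Fermat.Agent.S36.BP IntermediateField Polynomial

variable {K₀ F : Type*} [Field K₀] [Field F] [Algebra K₀ F]
variable {A₀ : ValuationSubring K₀} {q : ℕ} {x : F} {V : Fin 3 → ValuationSubring F} {ϖm : F}

/-- The uniformisers of the three components. -/
theorem PreModel.exists_unif (P : PreModel A₀ q x V ϖm) :
    ∃ ϖ : Fin 3 → F, ∀ c, IsUnif (V c) (ϖ c) := by
  refine ⟨![(q : F), ϖm, (q : F)], fun c => ?_⟩
  fin_cases c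
  · exact P.unif0
  · exact P.unif1
  · exact P.unif2

theorem PreModel.exists_sep (P : PreModel A₀ q x V ϖm) (c : Fin 3) :
    ∃ h ∈ chart A₀.toSubring x, (V c).valuation h = 1 ∧ ∀ c', c' ≠ c → (V c').valuation h < 1 := by
  classical
  obtain ⟨ϖ, hU⟩ := P.exists_unif
  obtain ⟨g, -, hg⟩ := exists_prescribed_orders V ϖ hU P.inj (fun c' => if c' = c then 0 else 1)
  obtain ⟨d, -, hd, k, hk⟩ := P.exists_denominator g
  have hval : ∀ c', (V c').valuation (d * g) = if c' = c then 1 else (V c').valuation (ϖ c') := by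
    intro c'
    rw [map_mul, hd c', one_mul, hg c']
    split_ifs
    · rw [zpow_zero]
    · rw [zpow_one]
  refine ⟨d * g, P.qep_pow k _ hk fun c' => ?_, ?_, fun c' hc' => ?_⟩
  · rw [← ValuationSubring.valuation_le_one_iff, hval c']
    split_ifs
    · exact le_rfl
    · exact (approx_val_unif_lt_one (hU c')).le
  · rw [hval c, if_pos rfl]
  · rw [hval c', if_neg hc']
    exact approx_val_unif_lt_one (hU c')

theorem PreModel.loc (P : PreModel A₀ q x V ϖm) (c : Fin 3) :
    ∀ y ∈ V c, ∃ s ∈ chart A₀.toSubring x, (V c).valuation s = 1 ∧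
      s * y ∈ chart A₀.toSubring x := by
  classical
  intro y hy
  obtain ⟨ϖ, hU⟩ := P.exists_unif
  obtain ⟨d, hdp, hd, k, hk⟩ := P.exists_denominator y
  obtain ⟨h, hh, hhc, hhc'⟩ := P.exists_sep c
  have hdB : d ∈ chart A₀.toSubring x := polyRing_le_chart _ _ hdp
  have hex : ∀ c', ∃ m : ℕ, c' ≠ c → h ^ m * (d * y) ∈ V c' := by
    intro c'
    by_cases hc' : c' = c
    · exact ⟨0, fun h' => absurd hc' h'⟩
    · obtain ⟨m, hm⟩ := LocQep.exists_pow_mul_mem (hU c') (hhc' c' hc') (d * y)
      exact ⟨m, fun _ => hm⟩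
  choose m hm using hex
  set M : ℕ := ∑ c', m c' with hM
  have hsB : h ^ M * d ∈ chart A₀.toSubring x := Subring.mul_mem _ (Subring.pow_mem _ hh M) hdB
  refine ⟨h ^ M * d, hsB, by rw [map_mul, map_pow, hhc, one_pow, hd c, one_mul], ?_⟩
  refine P.qep_pow k _ ?_ fun c' => ?_
  · have e : (q : F) ^ k * (h ^ M * d * y) = h ^ M * ((q : F) ^ k * (d * y)) := by ring
    rw [e]
    exact Subring.mul_mem _ (Subring.pow_mem _ hh M) hk
  · by_cases hc' : c' = c
    · subst hc'
      exact (V c').mul_mem _ _ (P.chart_le c' _ hsB) hy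
    · have hle : m c' ≤ M := Finset.single_le_sum (f := m) (fun _ _ => Nat.zero_le _)
        (Finset.mem_univ c')
      have e : h ^ M * d * y = h ^ (M - m c') * (h ^ m c' * (d * y)) := by
        rw [← mul_assoc, ← pow_add, Nat.sub_add_cancel hle, mul_assoc]
      rw [e]
      exact (V c').mul_mem _ _ (pow_mem (P.chart_le c' _ hh) _) (hm c' hc')

end Fermat.Agent.BAD.Model
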