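/-
Project BAD, layer L-MOD, block PRE, node PRE-4 (owner helper106).
Every closed point of the special fibre of a chart of a `PreModel` is a `PtBase`: the proof, with
the two inputs from PRE-1 (`isPt`) and PRE-3 (`loc`) as explicit hypotheses.
-/
import Mathlib
import Fermat.Agent.S18.Defs
import Fermat.Agent.S18.Chart.Unif
import Fermat.Agent.S36.BP.Defs
import Fermat.Agent.S36.BP.Loc.Basic
import Fermat.Agent.S36.BP.LocQep
import Fermat.Agent.BAD.Model.Defs

set_option autoImplicit false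

noncomputable section

namespace Fermat.Agent.BAD.Model

open Fermat.Agent.S18 Fermat.Agent.S36.BP IntermediateField Polynomial

variable {K₀ F : Type*} [Field K₀] [Field F] [Algebra K₀ F]
variable {A₀ : ValuationSubring K₀} {q : ℕ} {x : F} {V : Fin 3 → ValuationSubring F} {ϖm : F}

namespace PtBaseCore

/-- an element of the maximal ideal of a discrete valuation ring is divisible by the uniformiser -/
theorem div_mem_of_val_lt {W : ValuationSubring F} {ϖ : F} (h : IsUnif W ϖ) {y : F}
    (hy : W.valuation y < 1) : y / ϖ ∈ W := by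
  by_cases hy0 : y = 0
  · rw [hy0, zero_div]; exact W.zero_mem
  refine h.div_mem ((ValuationSubring.valuation_le_one_iff W y).1 hy.le) fun hinv => ?_
  have h1 := (ValuationSubring.valuation_le_one_iff W _).2 hinv
  rw [map_inv₀] at h1
  have hne : W.valuation y ≠ 0 := (Valuation.ne_zero_iff _).2 hy0
  have h2 : 1 ≤ W.valuation y := by rwa [inv_le_one₀ (zero_lt_iff.2 hne)] at h1
  exact absurd hy (not_lt.2 h2)

theorem chart_le (P : PreModel A₀ q x V ϖm) (c : Fin 3) :
    ∀ b ∈ chart A₀.toSubring x, b ∈ V c :=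
  LocQep.chart_le_of (P.const_mem c)
    ((ValuationSubring.valuation_le_one_iff _ _).1 (P.x_unit c).le)

theorem exists_unif (P : PreModel A₀ q x V ϖm) (c : Fin 3) : ∃ ϖ : F, IsUnif (V c) ϖ := by
  fin_cases c
  · exact ⟨_, P.unif0⟩
  · exact ⟨_, P.unif1⟩
  · exact ⟨_, P.unif2⟩

/-- if `a` lies in the maximal ideals of the three components then `a ^ (q - 1) / q` is integral
on the three components -/
theorem pow_div_mem (P : PreModel A₀ q x V ϖm) {a : F} (ha : ∀ c, (V c).valuation a < 1)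
    (c : Fin 3) : a ^ (q - 1) / (q : F) ∈ V c := by
  have hq2 : 2 ≤ q := P.base.prime.two_le
  have e : a ^ (q - 1) / (q : F) = a ^ (q - 2) * (a / (q : F)) := by
    have : q - 1 = (q - 2) + 1 := by omega
    rw [this, pow_succ]
    have : q - 2 + 1 - 1 = q - 2 := by omega
    ring
  have hmem : ∀ c, a ∈ V c := fun c => (ValuationSubring.valuation_le_one_iff _ _).1 (ha c).le
  fin_cases c
  · rw [e]
    exact (V 0).mul_mem _ _ ((V 0).pow_mem (hmem 0) _) (div_mem_of_val_lt P.unif0 (ha 0))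
  · show a ^ (q - 1) / (q : F) ∈ V 1
    have h1 : a / ϖm ∈ V 1 := div_mem_of_val_lt P.unif1 (ha 1)
    have h2 := (ValuationSubring.valuation_le_one_iff _ _).2 ((V 1).pow_mem h1 (q - 1))
    rw [← ValuationSubring.valuation_le_one_iff, map_div₀, map_pow, ← P.ram1]
    rwa [map_pow, map_div₀, div_pow] at h2
  · rw [e]
    exact (V 2).mul_mem _ _ ((V 2).pow_mem (hmem 2) _) (div_mem_of_val_lt P.unif2 (ha 2))

variable (P : PreModel A₀ q x V ϖm) (𝔫 : Ideal (chart A₀.toSubring x)) [h𝔫m : 𝔫.IsMaximal]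

include P in
theorem leLoc_or_away
    (hloc : ∀ c, ∀ y ∈ V c, ∃ s ∈ chart A₀.toSubring x, (V c).valuation s = 1 ∧
      s * y ∈ chart A₀.toSubring x) (c : Fin 3) :
    LeLoc (locSub (chart A₀.toSubring x) 𝔫) (V c) ∨ Away (locSub (chart A₀.toSubring x) 𝔫) (V c) := by
  have hpr : 𝔫.IsPrime := Ideal.IsMaximal.isPrime inferInstance
  have hB := chart_le P c
  by_cases h : ∃ e : chart A₀.toSubring x, e ∉ 𝔫 ∧ (V c).valuation (e : F) < 1
  · obtain ⟨e, he, hlt⟩ := h
    right
    refine ⟨e, rUnit_locSub_iff.mpr ⟨e, 1, he,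
      fun h1 => hpr.ne_top ((Ideal.eq_top_iff_one _).2 h1), by simp⟩, hlt⟩
  · left
    simp only [not_exists, not_and, not_lt] at h
    have hone : ∀ e : chart A₀.toSubring x, e ∉ 𝔫 → (V c).valuation (e : F) = 1 := fun e he =>
      le_antisymm ((ValuationSubring.valuation_le_one_iff _ _).2 (hB _ e.2)) (h e he)
    refine ⟨?_, ?_⟩
    · rintro r ⟨a, s, hs, e⟩
      rw [← ValuationSubring.valuation_le_one_iff]
      have h1 := congrArg (V c).valuation e
      rw [map_mul, hone s hs, mul_one] at h1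
      rw [h1]
      exact (ValuationSubring.valuation_le_one_iff _ _).2 (hB _ a.2)
    · intro y hy
      obtain ⟨s, hs, hs1, hsy⟩ := hloc c y hy
      exact ⟨s, le_locSub hs, hs1, le_locSub hsy⟩

include P in
theorem not_all_away (h𝔫 : (q : chart A₀.toSubring x) ∈ 𝔫) :
    ¬ ∀ c, Away (locSub (chart A₀.toSubring x) 𝔫) (V c) := by
  have hpr : 𝔫.IsPrime := Ideal.IsMaximal.isPrime inferInstance
  intro hA
  have hex : ∀ c, ∃ a : chart A₀.toSubring x, a ∉ 𝔫 ∧ (V c).valuation (a : F) < 1 := fun c =>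
    LocQep.exists_of_away (chart_le P c) (hA c)
  choose a ha1 ha2 using hex
  have hle : ∀ c c', (V c).valuation (a c' : F) ≤ 1 := fun c c' =>
    (ValuationSubring.valuation_le_one_iff _ _).2 (chart_le P c _ (a c').2)
  set b : chart A₀.toSubring x := a 0 * a 1 * a 2 with hb
  have hbn : b ∉ 𝔫 := by
    intro h
    rcases hpr.mem_or_mem h with h | h
    · rcases hpr.mem_or_mem h with h | h
      · exact ha1 0 h
      · exact ha1 1 h
    · exact ha1 2 h
  have hbv : ∀ c, (V c).valuation (b : F) < 1 := by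
    intro c
    have e : (b : F) = (a 0 : F) * (a 1 : F) * (a 2 : F) := by rw [hb]; push_cast; ring
    rw [e, map_mul, map_mul]
    fin_cases c
    · exact lt_of_le_of_lt (mul_le_of_le_one_right' (hle 0 2))
        (lt_of_le_of_lt (mul_le_of_le_one_right' (hle 0 1)) (ha2 0))
    · exact lt_of_le_of_lt (mul_le_of_le_one_right' (hle 1 2))
        (lt_of_le_of_lt (mul_le_of_le_one_left' (hle 1 0)) (ha2 1))
    · exact lt_of_le_of_lt (mul_le_of_le_one_left'
        (mul_le_one' (hle 2 0) (hle 2 1))) (ha2 2)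
  have hq0 : (q : F) ≠ 0 := P.unif0.ne_zero
  have hy : (b : F) ^ (q - 1) / (q : F) ∈ chart A₀.toSubring x := by
    apply P.qep₁
    · rw [mul_div_cancel₀ _ hq0]
      exact (chart A₀.toSubring x).pow_mem b.2 _
    · exact pow_div_mem P hbv
  have hmem : b ^ (q - 1) ∈ 𝔫 := by
    have e : b ^ (q - 1) = (q : chart A₀.toSubring x) * ⟨_, hy⟩ := by
      apply Subtype.ext
      push_cast
      rw [mul_div_cancel₀ _ hq0]
    rw [e]
    exact 𝔫.mul_mem_right _ h𝔫
  exact hbn (hpr.mem_of_pow_mem _ hmem)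

include P in
theorem qep (y : F) (h1 : (q : F) * y ∈ locSub (chart A₀.toSubring x) 𝔫)
    (h2 : ∀ c, y ∈ V c ∨ Away (locSub (chart A₀.toSubring x) 𝔫) (V c)) :
    y ∈ locSub (chart A₀.toSubring x) 𝔫 := by
  have hpr : 𝔫.IsPrime := Ideal.IsMaximal.isPrime inferInstance
  have hB := chart_le P
  have ht : ∀ c, ∃ t : chart A₀.toSubring x, t ∉ 𝔫 ∧ (t : F) * y ∈ V c := by
    intro c
    rcases h2 c with hT | hA
    · refine ⟨1, fun h => hpr.ne_top ((Ideal.eq_top_iff_one _).2 h), ?_⟩
      rw [Subring.coe_one, one_mul]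
      exact hT
    · obtain ⟨a, ha, hlt⟩ := LocQep.exists_of_away (hB c) hA
      obtain ⟨ϖ, hϖ⟩ := exists_unif P c
      obtain ⟨k, hk⟩ := LocQep.exists_pow_mul_mem hϖ hlt y
      refine ⟨a ^ k, fun h => ha (hpr.mem_of_pow_mem k h), ?_⟩
      rw [Subring.coe_pow]
      exact hk
  choose t ht1 ht2 using ht
  obtain ⟨a, s, hs, has⟩ := h1
  have hT : t 0 * t 1 * t 2 * s ∉ 𝔫 := by
    intro h
    rcases hpr.mem_or_mem h with h | h
    · rcases hpr.mem_or_mem h with h | h
      · rcases hpr.mem_or_mem h with h | h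
        · exact ht1 0 h
        · exact ht1 1 h
      · exact ht1 2 h
    · exact hs h
  have hy' : ((t 0 * t 1 * t 2 * s : chart A₀.toSubring x) : F) * y ∈ chart A₀.toSubring x := by
    apply P.qep₁
    · have e : (q : F) * (((t 0 * t 1 * t 2 * s : chart A₀.toSubring x) : F) * y)
          = ((t 0 * t 1 * t 2 * a : chart A₀.toSubring x) : F) := by
        push_cast
        rw [← has]
        ring
      rw [e]
      exact Subtype.property _
    · intro c
      fin_cases c
      · have e : ((t 0 * t 1 * t 2 * s : chart A₀.toSubring x) : F) * y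
            = ((t 1 * t 2 * s : chart A₀.toSubring x) : F) * ((t 0 : F) * y) := by
          push_cast; ring
        rw [e]
        exact (V 0).mul_mem _ _ (hB 0 _ (Subtype.property _)) (ht2 0)
      · have e : ((t 0 * t 1 * t 2 * s : chart A₀.toSubring x) : F) * y
            = ((t 0 * t 2 * s : chart A₀.toSubring x) : F) * ((t 1 : F) * y) := by
          push_cast; ring
        rw [e]
        exact (V 1).mul_mem _ _ (hB 1 _ (Subtype.property _)) (ht2 1)
      · have e : ((t 0 * t 1 * t 2 * s : chart A₀.toSubring x) : F) * y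
            = ((t 0 * t 1 * s : chart A₀.toSubring x) : F) * ((t 2 : F) * y) := by
          push_cast; ring
        rw [e]
        exact (V 2).mul_mem _ _ (hB 2 _ (Subtype.property _)) (ht2 2)
  exact ⟨⟨_, hy'⟩, t 0 * t 1 * t 2 * s, hT, mul_comm _ _⟩

include P in
/-- PRE-4 with the inputs of PRE-1 and PRE-3 as hypotheses -/
theorem ptBase_of (h𝔫 : (q : chart A₀.toSubring x) ∈ 𝔫)
    (hpt : IsPt A₀ (locSub (chart A₀.toSubring x) 𝔫))
    (hloc : ∀ c, ∀ y ∈ V c, ∃ s ∈ chart A₀.toSubring x, (V c).valuation s = 1 ∧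
      s * y ∈ chart A₀.toSubring x) :
    PtBase A₀ q V (locSub (chart A₀.toSubring x) 𝔫) where
  isPt := hpt
  leLoc_or_away := leLoc_or_away P 𝔫 hloc
  not_all_away := not_all_away P 𝔫 h𝔫
  qep := qep P 𝔫

end PtBaseCore

end Fermat.Agent.BAD.Model
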