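/-
Project BAD, layer L-MOD, block PRE, node PRE-4 (owner helper106).
Every closed point of the special fibre of a chart of a `PreModel` is a `PtBase`.
-/
import Fermat.Agent.BAD.Model.Pre.IsPt
import Fermat.Agent.BAD.Model.Pre.Loc
import Fermat.Agent.BAD.Model.Pre.PtBaseCore

set_option autoImplicit false

noncomputable section

namespace Fermat.Agent.BAD.Model

open Fermat.Agent.S18 Fermat.Agent.S36.BP IntermediateField Polynomial

variable {K₀ F : Type*} [Field K₀] [Field F] [Algebra K₀ F]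
variable {A₀ : ValuationSubring K₀} {q : ℕ} {x : F} {V : Fin 3 → ValuationSubring F} {ϖm : F}

theorem PreModel.ptBase (P : PreModel A₀ q x V ϖm) (𝔫 : Ideal (chart A₀.toSubring x))
    [𝔫.IsMaximal] (h𝔫 : (q : chart A₀.toSubring x) ∈ 𝔫) :
    PtBase A₀ q V (locSub (chart A₀.toSubring x) 𝔫) :=
  PtBaseCore.ptBase_of P 𝔫 h𝔫 (P.isPt 𝔫 h𝔫) P.loc

end Fermat.Agent.BAD.Model
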